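import Fermat.Agent.LT.A2.H254.RecSplitSpec

/-!
# Row LT, tower A2, sub-leaf A2.03.8.5.3 `H254.PartnerC254` (helper926), OFF-MAIN

`partnerC254_926 : Fermat.Agent.LT.A2.H254.PartnerC254`, verbatim the Prop of
`LT/A2/H254/RecSplitSpec.lean` (helper254@51dfc4e4e, sha256 947dfa59, byte-identical copy).

`g'` trivial at `v`, `(g', m)` admissible.  Put `m' = m · loc_v(m_v)⁻¹`.
* `m'` is trivial at `v`;
* `m' = torMat t n a' b'` with `a'`, `b'` the coordinates `a`, `b` of `m` with the component at
  `v` replaced by `1`, resp. `0` (checked place by place);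
* `det loc_v(m_v) = 1` because `det m_v = det g'_v = 1`, so `det m' = det m = det g'`.
-/

set_option autoImplicit false

open IsDedekindDomain NumberField AutomorphicForm MeasureTheory
open scoped MatrixGroups

noncomputable section

namespace Fermat.Agent.LT.A2.H926

open Fermat.Agent.LT.H556 Fermat.Agent.LT.H556.A0 Fermat.Agent.LT.H129
open Fermat.Agent.LT.A2 Fermat.Agent.LT.A2.H254

/-- A ring homomorphism maps torus matrices to torus matrices. -/
lemma torMat_map926p {R S : Type*} [CommRing R] [CommRing S] (f : R →+* S) (t n a b : R) :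
    (torMat t n a b).map f = torMat (f t) (f n) (f a) (f b) := by
  unfold torMat
  ext i j
  fin_cases i <;> fin_cases j <;> simp

/-- `torMat t n 1 0 = 1`. -/
lemma torMat_one926p {R : Type*} [CommRing R] (t n : R) : torMat t n 1 0 = 1 := by
  unfold torMat
  ext i j
  fin_cases i <;> fin_cases j <;> simp

variable {K : Type} [Field K] [NumberField K]

/-- The adele `x` with the component at `v` replaced by `c`. -/
def replaceAt926 (v : HeightOneSpectrum (𝓞 K)) (x : Adl K) (c : v.adicCompletion K) : Adl K :=
  (x.1, x.2 - finSingle129 v false (x.2 v) + finSingle129 v false c)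

lemma replaceAt926_inf (v : HeightOneSpectrum (𝓞 K)) (x : Adl K) (c : v.adicCompletion K)
    (w : InfinitePlace K) : evI129 w (replaceAt926 v x c) = evI129 w x := rfl

lemma replaceAt926_same (v : HeightOneSpectrum (𝓞 K)) (x : Adl K) (c : v.adicCompletion K) :
    evF129 v (replaceAt926 v x c) = c := by
  change x.2 v - finSingle129 v false (x.2 v) v + finSingle129 v false c v = c
  rw [finSingle129_same, finSingle129_same]
  ring

lemma replaceAt926_of_ne (v : HeightOneSpectrum (𝓞 K)) (x : Adl K) (c : v.adicCompletion K)
    {v' : HeightOneSpectrum (𝓞 K)} (h : v' ≠ v) :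
    evF129 v' (replaceAt926 v x c) = evF129 v' x := by
  simp only [evF129_apply, replaceAt926]
  change x.2 v' - finSingle129 v false (x.2 v) v' + finSingle129 v false c v' = x.2 v'
  rw [finSingle129_of_ne v _ _ h, finSingle129_of_ne v _ _ h]
  simp

/-- The determinant of the local embedding of an element of determinant one is one. -/
lemma det_locFin926 (v : HeightOneSpectrum (𝓞 K)) (x : GL (Fin 2) (v.adicCompletion K))
    (hx : Matrix.GeneralLinearGroup.det x = 1) :
    Matrix.GeneralLinearGroup.det (locFin129 v x) = 1 := by
  apply Units.ext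
  rw [Matrix.GeneralLinearGroup.val_det_apply, coe_locFin129, Units.val_one]
  apply adele_ext129
  · intro w
    have h := RingHom.map_det (evI129 w)
      (locMat129 v (x : Matrix (Fin 2) (Fin 2) (v.adicCompletion K)))
    rw [RingHom.mapMatrix_apply, locMat129_map_inf, Matrix.det_one] at h
    exact h
  · intro v'
    have h := RingHom.map_det (evF129 v')
      (locMat129 v (x : Matrix (Fin 2) (Fin 2) (v.adicCompletion K)))
    rw [RingHom.mapMatrix_apply] at h
    by_cases hv : v' = v
    · subst hv
      rw [locMat129_map_same] at h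
      have hx' : (x : Matrix (Fin 2) (Fin 2) (v'.adicCompletion K)).det = 1 := by
        have := congrArg Units.val hx
        rwa [Matrix.GeneralLinearGroup.val_det_apply] at this
      rw [hx'] at h
      exact h
    · rw [locMat129_map_of_ne v _ hv, Matrix.det_one] at h
      exact h

/-- **A2.03.8.5.3 PARTNER**, verbatim `H254.PartnerC254`. -/
theorem partnerC254_926 : PartnerC254 := by
  intro K _ _ t n v g' hg' hplus
  obtain ⟨m, ⟨a, b, hab⟩, hdet⟩ := hplus
  have hg1 : finCompHom129 v g' = 1 := (trivAtFin_iff129 v g').mp hg'
  -- the component of `m` at `v` has determinant one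
  have hdetv : Matrix.GeneralLinearGroup.det (finCompHom129 v m) = 1 := by
    have h1 : Matrix.GeneralLinearGroup.det (finCompHom129 v m)
        = Matrix.GeneralLinearGroup.det (finCompHom129 v g') := by
      unfold finCompHom129
      rw [Matrix.GeneralLinearGroup.map_det, Matrix.GeneralLinearGroup.map_det, hdet]
    rw [h1, hg1, map_one]
  have hL := det_locFin926 v (finCompHom129 v m) hdetv
  refine ⟨m * (locFin129 v (finCompHom129 v m))⁻¹, ⟨?_, ?_⟩, ?_⟩
  · -- in the torus
    refine ⟨replaceAt926 v a 1, replaceAt926 v b 0, ?_⟩
    rw [Units.val_mul, ← map_inv, coe_locFin129]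
    apply adeleMatrix_ext129
    · intro w
      rw [Matrix.map_mul, locMat129_map_inf, mul_one, hab, torMat_map926p, torMat_map926p,
        replaceAt926_inf, replaceAt926_inf]
    · intro v'
      rw [Matrix.map_mul]
      by_cases hv : v' = v
      · subst hv
        rw [locMat129_map_same, ← coe_finCompHom129_map, ← Matrix.GeneralLinearGroup.coe_mul,
          mul_inv_cancel, torMat_map926p, replaceAt926_same, replaceAt926_same, torMat_one926p]
        rfl
      · rw [locMat129_map_of_ne v _ hv, mul_one, hab, torMat_map926p, torMat_map926p,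
          replaceAt926_of_ne v _ _ hv, replaceAt926_of_ne v _ _ hv]
  · -- the determinant
    rw [map_mul, map_inv, hL, inv_one, mul_one, hdet]
  · -- trivial at `v`
    rw [trivAtFin_iff129, map_mul, map_inv, finCompHom129_locFin129, mul_inv_cancel]

end Fermat.Agent.LT.A2.H926

end
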