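import Fermat.Agent.LT.A2.H904.LiftBddSpec

/-!
# Row LT, tower A2, sub-leaf A2.03.4.1 `H904.AdmCompactC` (helper926), OFF-MAIN

`admCompactC_926 : Fermat.Agent.LT.A2.H904.AdmCompactC`, verbatim the Prop of
`LT/A2/H904/LiftBddSpec.lean` (helper904@539b3999f, byte-identical copy).

Proof (the sketch of the Spec, with one simplification: only the MULTIPLICATIVITY of the torus is
used, no inverse).  `P = GL₂(K) GL₂(𝔸_K)⁺` is closed: by `TorusOpenC` at the admissible pair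
`(1, 1)` there is a neighbourhood `U` of `1` inside `GL₂(𝔸_K)⁺`; if `g₀` is in the closure of `P`,
the neighbourhood `{g | g⁻¹ g₀ ∈ U}` of `g₀` contains some `p ∈ P`, and `g₀ = p (p⁻¹ g₀)` is in
`P` because admissible pairs multiply.  So `Ω ∩ P` is compact; for `ω₀ ∈ Ω ∩ P` with
`γ₀ ω₀ ∈ GL₂(𝔸_K)⁺`, the matrix `diag(1, det γ₀)` has the same determinant as `γ₀`, so
`diag(1, det γ₀) ω₀` has the same admissible partners; a compact neighbourhood of one partner,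
`TorusOpenC`, and a finite subcover give the compact set of pairs.
-/

set_option autoImplicit false

open IsDedekindDomain NumberField AutomorphicForm MeasureTheory
open scoped MatrixGroups Topology

noncomputable section

namespace Fermat.Agent.LT.A2.H926

open Fermat.Agent.LT.H130 Fermat.Agent.LT.H556 Fermat.Agent.LT.A2

/-- The product of two torus matrices is a torus matrix. -/
lemma torMat_mul926 {R : Type*} [CommRing R] (t n a b c d : R) :
    torMat t n a b * torMat t n c d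
      = torMat t n (a * c - n * (b * d)) (a * d + b * c + t * (b * d)) := by
  unfold torMat
  ext i j
  fin_cases i <;> fin_cases j <;> simp [Matrix.mul_apply, Fin.sum_univ_two] <;> ring

variable {K : Type} [Field K] [NumberField K]

lemma inTorus_mul926 {t n : K} {m₁ m₂ : A0.G K} (h₁ : InTorus t n m₁) (h₂ : InTorus t n m₂) :
    InTorus t n (m₁ * m₂) := by
  obtain ⟨a, b, hab⟩ := h₁
  obtain ⟨c, d, hcd⟩ := h₂
  refine ⟨a * c - algebraMap K (A0.Adl K) n * (b * d),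
    a * d + b * c + algebraMap K (A0.Adl K) t * (b * d), ?_⟩
  rw [Units.val_mul, hab, hcd, torMat_mul926]

lemma inTorus_one926 (t n : K) : InTorus t n (1 : A0.G K) := by
  refine ⟨1, 0, ?_⟩
  unfold torMat
  ext i j
  fin_cases i <;> fin_cases j <;> simp

lemma adm_one926 (t n : K) : Adm t n (1 : A0.G K) 1 := ⟨inTorus_one926 t n, rfl⟩

lemma adm_mul926 {t n : K} {g₁ g₂ m₁ m₂ : A0.G K} (h₁ : Adm t n g₁ m₁) (h₂ : Adm t n g₂ m₂) :
    Adm t n (g₁ * g₂) (m₁ * m₂) :=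
  ⟨inTorus_mul926 h₁.1 h₂.1, by rw [map_mul, map_mul, h₁.2, h₂.2]⟩

/-- `P = GL₂(K) GL₂(𝔸_K)⁺`. -/
def inP926 (t n : K) : Set (A0.G K) := {ω | ∃ γ : GL (Fin 2) K, InGPlus t n (ratG γ * ω)}

/-- `P` is closed. -/
lemma isClosed_inP926 (hopen : WL.TorusOpenC) (t n : K)
    (hirr : ∀ x : K, x ^ 2 - t * x + n ≠ 0) : IsClosed (inP926 t n) := by
  rw [← closure_subset_iff_isClosed]
  intro g₀ hg₀
  obtain ⟨U, hU, hUadm⟩ := hopen K t n hirr 1 1 (adm_one926 t n) Set.univ Filter.univ_mem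
  have hN : {g : A0.G K | g⁻¹ * g₀ ∈ U} ∈ 𝓝 g₀ := by
    have hc : Continuous fun g : A0.G K => g⁻¹ * g₀ := continuous_inv.mul continuous_const
    have h1 : g₀⁻¹ * g₀ = 1 := by simp
    exact hc.continuousAt.preimage_mem_nhds (by rw [h1]; exact hU)
  obtain ⟨p, hpN, hpP⟩ := mem_closure_iff_nhds.mp hg₀ _ hN
  obtain ⟨γ, mp, hmp⟩ := hpP
  obtain ⟨mu, -, hmu⟩ := hUadm _ hpN
  refine ⟨γ, mp * mu, ?_⟩
  have h2 : ratG γ * g₀ = (ratG γ * p) * (p⁻¹ * g₀) := by group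
  rw [h2]
  exact adm_mul926 hmp hmu

omit [NumberField K] in
/-- The diagonal matrix `diag(1, det γ)` has the determinant of `γ`. -/
lemma exists_diag926 (γ₀ : GL (Fin 2) K) :
    ∃ (α : K) (γ : GL (Fin 2) K), (γ : Matrix (Fin 2) (Fin 2) K) = !![1, 0; 0, α] ∧
      Matrix.GeneralLinearGroup.det γ = Matrix.GeneralLinearGroup.det γ₀ := by
  have hαne : ((Matrix.GeneralLinearGroup.det γ₀ : Kˣ) : K) ≠ 0 := Units.ne_zero _
  refine ⟨((Matrix.GeneralLinearGroup.det γ₀ : Kˣ) : K),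
    Matrix.GeneralLinearGroup.mkOfDetNeZero !![1, 0; 0, ((Matrix.GeneralLinearGroup.det γ₀ : Kˣ) : K)]
      (by simpa [Matrix.det_fin_two] using hαne), rfl, ?_⟩
  apply Units.ext
  rw [Matrix.GeneralLinearGroup.val_det_apply]
  simp [Matrix.GeneralLinearGroup.mkOfDetNeZero, Matrix.det_fin_two]

/-- **A2.03.4.1 ADM-COMPACT**, verbatim `H904.AdmCompactC`. -/
theorem admCompactC_926 : H904.AdmCompactC := by
  intro hopen K _ _ t n hirr hLC Ω hΩ
  have : LocallyCompactSpace (A0.G K) := hLC.2.1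
  have hPcl := isClosed_inP926 hopen t n hirr
  have hKP : IsCompact (Ω ∩ inP926 t n) := hΩ.inter_right hPcl
  have key : ∀ ω₀ : A0.G K, ω₀ ∈ Ω ∩ inP926 t n →
      ∃ (α : K) (γ : GL (Fin 2) K) (V W : Set (A0.G K)),
        (γ : Matrix (Fin 2) (Fin 2) K) = !![1, 0; 0, α] ∧ IsCompact V ∧ IsOpen W ∧ ω₀ ∈ W ∧
        ∀ ω ∈ W, ∃ m ∈ V, Adm t n (ratG γ * ω) m := by
    intro ω₀ hω₀
    obtain ⟨γ₀, m₀, hm₀⟩ := hω₀.2
    obtain ⟨α, γ', hγ', hdet⟩ := exists_diag926 γ₀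
    have hadm : Adm t n (ratG γ' * ω₀) m₀ := by
      refine ⟨hm₀.1, ?_⟩
      rw [← hm₀.2, map_mul, map_mul]
      congr 1
      unfold ratG
      rw [Matrix.GeneralLinearGroup.map_det, Matrix.GeneralLinearGroup.map_det, hdet]
    obtain ⟨V, hVc, hVn⟩ := exists_compact_mem_nhds m₀
    obtain ⟨U, hU, hUadm⟩ := hopen K t n hirr _ _ hadm V hVn
    have hc : Continuous fun ω : A0.G K => ratG γ' * ω := continuous_const.mul continuous_id
    have hpre : (fun ω : A0.G K => ratG γ' * ω) ⁻¹' U ∈ 𝓝 ω₀ :=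
      hc.continuousAt.preimage_mem_nhds hU
    refine ⟨α, γ', V, interior ((fun ω : A0.G K => ratG γ' * ω) ⁻¹' U), hγ', hVc,
      isOpen_interior, mem_interior_iff_mem_nhds.mpr hpre, ?_⟩
    intro ω hω
    have hω' : ω ∈ (fun ω : A0.G K => ratG γ' * ω) ⁻¹' U := interior_subset hω
    exact hUadm _ hω'
  choose! α γ V W hγ hVc hWo hWmem hWadm using key
  obtain ⟨s, hs⟩ := hKP.elim_finite_subcover
    (fun ω₀ : (Ω ∩ inP926 t n : Set (A0.G K)) => W (ω₀ : A0.G K))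
    (fun ω₀ => hWo ω₀ ω₀.2)
    (fun ω hω => Set.mem_iUnion.mpr ⟨⟨ω, hω⟩, hWmem ω hω⟩)
  refine ⟨⋃ i ∈ s, ((fun ω : A0.G K => ratG (γ (i : A0.G K)) * ω) '' Ω) ×ˢ V (i : A0.G K),
    ?_, ?_⟩
  · refine s.isCompact_biUnion fun i _ => ?_
    exact (hΩ.image (continuous_const.mul continuous_id)).prod (hVc i i.2)
  · intro ω hω hP
    have hmem : ω ∈ Ω ∩ inP926 t n := ⟨hω, hP⟩
    obtain ⟨i, hi, hωi⟩ : ∃ i ∈ s, ω ∈ W (i : A0.G K) := by
      simpa using hs hmem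
    obtain ⟨m, hmV, hm⟩ := hWadm i i.2 ω hωi
    refine ⟨α i, γ i, m, hγ i i.2, hm, ?_⟩
    exact Set.mem_biUnion hi ⟨⟨ω, hω, rfl⟩, hmV⟩

end Fermat.Agent.LT.A2.H926

end
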